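/-
Program M1 (S44, row 38), brick (O1)+(O2) — helper34: ONE citation for the integral model of
`X₀(M' q)` at `q` that the depth argument needs.  Nothing new is proved here: this file assembles
Program P's (S36) per-`K` results.

* `exists_ready` : the field `ℚ(ζ_{M'})` is finite over `ℚ`, contains `ζ_{M'}`, is fixed pointwise by
  the inertia group of `A | q` (`q ∤ M'`) and is stable under every automorphism of `ℚ̄`; in
  particular it is inertial at `A` (`InertField27.IsInertial`).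
* `nodalModel_of_ready` (`q` odd, `4 ∣ M'`): over EVERY finite inertial `K ∋ ζ_{M'}`
  - the two charts `B0`, `B1` of level `M' q` over `A ∩ K` form `NumData13.NodalNumData`
    (reduced two-component special fibre, smooth off the crossing points, node coordinates);
  - `NodeRegAt10.NodeRegItems`: at every closed point through which both components pass there are
    `x y e` with `x y = π e`, `e ∉ 𝔪` (THICKNESS ONE), `𝔪 B_𝔪 = (x, y)`, `x`, `y` prime;
  - `q = π · unit` for every uniformiser `π` of `A ∩ K` (`K` is unramified at `A`).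
* `nodalModel_of_normal` : the `NodalNumData` part over every finite `K ∋ ζ_{M'}` NORMAL over `ℚ`
  (possibly ramified at `A`, e.g. `K(E[p])`), any uniformiser.
-/
import Mathlib
import Fermat.Agent.ES.P36.EisFinal4
import Fermat.Agent.ES.P36.RegDone21
import Fermat.Agent.ES.P36.RegNode21
import Fermat.Agent.ES.P36.ZetaUnr26

set_option autoImplicit false
set_option synthInstance.maxHeartbeats 400000

noncomputable section

open HahnSeries ModularCurve IntermediateField

namespace Fermat.Agent.M1.ModelInput34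

open Fermat.Agent.RED.Interface4 Fermat.Agent.RED.PUR.GaussGen8 Fermat.Agent.X0
  Fermat.Agent.ES.N34.ModelDefs9 Fermat.Agent.ES.N34.NumData13
  Fermat.Agent.ES.P36.InertField27 Fermat.Agent.ES.P36.ModelQAt4 Fermat.Agent.ES.P36.ModelInert4
  Fermat.Agent.ES.P36.NodeRegAt10 Fermat.Agent.RED.BASE.EtaQuot12

variable {q M' : ℕ} [NeZero M'] [NeZero q] {A : ValuationSubring Qbar}
  {K : IntermediateField ℚ Qbar}

/-- **(O1), existence of a ready field**: `ℚ(ζ_{M'})`. -/
theorem exists_ready (hq : q.Prime) (hqM : ¬ q ∣ M') (hA : A.LiesOverPrime q) :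
    ∃ K₀ : IntermediateField ℚ Qbar, FiniteDimensional ℚ K₀ ∧ zetaK M' ∈ K₀ ∧ IsInertial A K₀ ∧
      ∀ σ : Qbar ≃ₐ[ℚ] Qbar, ∀ x ∈ K₀, σ x ∈ K₀ := by
  obtain ⟨K₀, hfin, hζ, hfix, hst⟩ :=
    Fermat.Agent.ES.P36.ZetaUnr26.exists_zeta_field_unr hq hA M' hqM
  exact ⟨K₀, hfin, hζ, ⟨hfix, fun σ _ x hx => hst σ x hx⟩, hst⟩

/-- **(O1)+(O2) over an inertial field** (`q` odd, `4 ∣ M'`). -/
theorem nodalModel_of_ready (hq : q.Prime) (hq2 : q ≠ 2) (hqM : ¬ q ∣ M') (hM : 4 ∣ M')
    (hA : A.LiesOverPrime q) [FiniteDimensional ℚ K] (hK : IsInertial A K)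
    (hζ : zetaK M' ∈ K) :
    (∃ (ht : tq (↥K) 4 8 ∈ FK M' K) (hE : FK (M' * q) K ≤ fracField (AK A K)),
      ∀ (π : ↥(AK A K)) (hπ : IsUnif (AK A K) π),
        NodalNumData ↥(AK A K) ↥K ↥(FK (M' * q) K) π (tN q ht) (B0 A q ht) (B1 A q ht)
          (O1 M' q hπ hE) (O2 M' q hπ hE)) ∧
    NodeRegItems 4 8 q M' A K ∧
    ∀ π : ↥(AK A K), IsUnif (AK A K) π →
      ∃ u : (↥(AK A K))ˣ, ((q : ℕ) : ↥(AK A K)) = π * u := by
  have hF : FrobInvAt A K q := frobInvAt_of_isInertial hK hq hA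
  refine ⟨nodalNumData_four_inertial hq hq2 hqM hM hA hK hζ, ?_, ?_⟩
  · exact Fermat.Agent.ES.P36.EisFinal4.nodeRegItems_four hq hq2 hqM hM hA hK hζ
      (Fermat.Agent.ES.P36.RegNode21.twoGenItems10_of
        (Fermat.Agent.ES.P36.RegDone21.twoGenItems_four hq hq2 hqM hM hA hζ hF hK.1))
  · exact Fermat.Agent.ES.P36.RegDone21.natCast_eq_unif_mul hq hA hK.1

/-- **(O1) over a normal field** (`q` odd, `4 ∣ M'`), possibly ramified at `A`. -/
theorem nodalModel_of_normal (hq : q.Prime) (hq2 : q ≠ 2) (hqM : ¬ q ∣ M') (hM : 4 ∣ M')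
    (hA : A.LiesOverPrime q) [FiniteDimensional ℚ K] [Normal ℚ K] (hζ : zetaK M' ∈ K) :
    ∃ (ht : tq (↥K) 4 8 ∈ FK M' K) (hE : FK (M' * q) K ≤ fracField (AK A K)),
      ∀ (π : ↥(AK A K)) (hπ : IsUnif (AK A K) π),
        NodalNumData ↥(AK A K) ↥K ↥(FK (M' * q) K) π (tN q ht) (B0 A q ht) (B1 A q ht)
          (O1 M' q hπ hE) (O2 M' q hπ hE) :=
  nodalNumData_four_at hq hq2 hqM hM hA hζ (frobInvAt_of_normal hq hA)

end Fermat.Agent.M1.ModelInput34
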